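/-
Fermat/Agent/Jac/P1CohChi/Fibre.lean  (helper14, programme JAC, brick A1c)

Let `N` be an `R`-module (`R` an `A`-algebra) and `s : R`, such that `N` is a finite projective
`A[X]`-module with `X` acting as `s` (`Module.AEval A N s`).  Then `s` is `N`-regular and the fibre
`N / sN` is a finite projective `A`-module (a retract of `A^n`).
-/
import Mathlib

set_option autoImplicit false
set_option linter.unusedSectionVars false

universe u

open Polynomial

namespace Fermat.Agent.Jac.P1CohChi.Fibre

variable {A : Type u} [CommRing A] {R : Type u} [CommRing R] [Algebra A R] (s : R)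
  {N : Type u} [AddCommGroup N] [Module A N] [Module R N] [IsScalarTower A R N]

/-- `X` acts injectively on a projective `A[X]`-module, i.e. `s` is `N`-regular. -/
theorem isSMulRegular_of_projective [Module.Projective A[X] (Module.AEval A N s)] :
    IsSMulRegular N s := by
  have h : IsSMulRegular (Module.AEval A N s) (X : A[X]) :=
    Module.Flat.isSMulRegular_of_nonZeroDivisors X_mem_nonzeroDivisors
  intro x y hxy
  apply (Module.AEval.of A N s).injective
  apply h
  change (X : A[X]) • Module.AEval.of A N s x = (X : A[X]) • Module.AEval.of A N s y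
  rw [Module.AEval.X_smul_of, Module.AEval.X_smul_of]
  exact congrArg _ hxy

variable (A N)

/-- The submodule `sN` of `N`, as an `A`-submodule. -/
abbrev sSub : Submodule A N := LinearMap.range ((LinearMap.lsmul R N s).restrictScalars A)

/-- `N / sN` is a retract of a finite free `A`-module. -/
theorem exists_retract [Module.Finite A[X] (Module.AEval A N s)]
    [Module.Projective A[X] (Module.AEval A N s)] :
    ∃ (n : ℕ) (i : (N ⧸ sSub A s N) →ₗ[A] (Fin n → A)) (r : (Fin n → A) →ₗ[A] (N ⧸ sSub A s N)),
      r ∘ₗ i = LinearMap.id := by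
  obtain ⟨n, f, g, -, -, hfg⟩ :=
    Module.Finite.exists_comp_eq_id_of_projective A[X] (Module.AEval A N s)
  let ev : (Fin n → A[X]) →ₗ[A] (Fin n → A) := (Polynomial.lcoeff A 0).compLeft (Fin n)
  let inc : (Fin n → A) →ₗ[A] (Fin n → A[X]) := (Algebra.linearMap A A[X]).compLeft (Fin n)
  let o := Module.AEval.of A N s
  -- every vector of polynomials is its constant part plus `X` times something
  have hdecomp : ∀ v : Fin n → A[X], v = inc (ev v) + (X : A[X]) • (fun i => divX (v i)) := by
    intro v
    funext i
    simp only [ev, inc, LinearMap.compLeft_apply, Function.comp_apply, lcoeff_apply,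
      Algebra.linearMap_apply, Pi.add_apply, Pi.smul_apply, smul_eq_mul,
      ← Polynomial.C_eq_algebraMap]
    conv_lhs => rw [← divX_mul_X_add (v i)]
    ring
  have hev : ∀ w : Fin n → A[X], ev ((X : A[X]) • w) = 0 := by
    intro w
    funext i
    simp [ev]
  let gbar : (N ⧸ sSub A s N) →ₗ[A] (Fin n → A) :=
    (sSub A s N).liftQ (ev ∘ₗ g.restrictScalars A ∘ₗ o.toLinearMap) (by
      rintro _ ⟨y, rfl⟩
      simp only [LinearMap.coe_restrictScalars, LinearMap.lsmul_apply, LinearMap.mem_ker,
        LinearMap.coe_comp, LinearEquiv.coe_coe, Function.comp_apply]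
      have : o (s • y) = (X : A[X]) • o y := (Module.AEval.X_smul_of s y).symm
      rw [this, map_smul, hev])
  let fbar : (Fin n → A) →ₗ[A] (N ⧸ sSub A s N) :=
    (sSub A s N).mkQ ∘ₗ o.symm.toLinearMap ∘ₗ f.restrictScalars A ∘ₗ inc
  refine ⟨n, gbar, fbar, ?_⟩
  apply LinearMap.ext
  intro q
  obtain ⟨x, rfl⟩ := Submodule.Quotient.mk_surjective _ q
  simp only [LinearMap.coe_comp, Function.comp_apply, LinearMap.id_coe, id_eq]
  change fbar (ev (g (o x))) = Submodule.Quotient.mk x
  have h1 : f (g (o x)) = o x := LinearMap.congr_fun hfg (o x)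
  have h2 := hdecomp (g (o x))
  have h3 : o x = f (inc (ev (g (o x)))) + (X : A[X]) • f (fun i => divX (g (o x) i)) := by
    conv_lhs => rw [← h1, h2, map_add, map_smul]
  simp only [fbar, LinearMap.coe_comp, LinearEquiv.coe_coe, Function.comp_apply,
    LinearMap.coe_restrictScalars, Submodule.mkQ_apply]
  rw [eq_comm, ← sub_eq_zero, ← Submodule.Quotient.mk_sub, Submodule.Quotient.mk_eq_zero]
  refine ⟨o.symm (f (fun i => divX (g (o x) i))), ?_⟩
  simp only [LinearMap.coe_restrictScalars, LinearMap.lsmul_apply]
  apply o.injective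
  rw [← Module.AEval.X_smul_of, LinearEquiv.apply_symm_apply, map_sub,
    LinearEquiv.apply_symm_apply]
  rw [eq_sub_iff_add_eq, add_comm]
  exact h3.symm

theorem finite_quotient [Module.Finite A[X] (Module.AEval A N s)]
    [Module.Projective A[X] (Module.AEval A N s)] : Module.Finite A (N ⧸ sSub A s N) := by
  obtain ⟨n, i, r, h⟩ := exists_retract A s N
  exact Module.Finite.of_surjective r (LinearMap.surjective_of_comp_eq_id i r h)

theorem projective_quotient [Module.Finite A[X] (Module.AEval A N s)]
    [Module.Projective A[X] (Module.AEval A N s)] : Module.Projective A (N ⧸ sSub A s N) := by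
  obtain ⟨n, i, r, h⟩ := exists_retract A s N
  exact Module.Projective.of_split i r h

end Fermat.Agent.Jac.P1CohChi.Fibre
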