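/-
Fermat/Agent/Jac/P1CohChi/Complex.lean  (helper14, programme JAC, brick A1c)

Abstract linear algebra about two-term complexes `d : M → N`:

* `euler_comp` : over a field, if `d = d' ∘ φ` with `φ` injective, then
  `χ(d') = χ(d) + dim coker φ` (with the necessary finite-dimensionality).
* `baseChange_injective_of_flat_coker`, `cokerBaseChangeEquiv` : base change of an injective map
  with flat cokernel.
-/
import Mathlib

set_option autoImplicit false

open TensorProduct

namespace Fermat.Agent.Jac.P1CohChi.Complex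

section Field

variable {K : Type*} [Field K] {M M' N : Type*} [AddCommGroup M] [Module K M]
  [AddCommGroup M'] [Module K M'] [AddCommGroup N] [Module K N]

open LinearMap Module

/-- The inclusion `ker d → ker d'` induced by `φ` when `d = d' ∘ φ`. -/
def kerMap (d : M →ₗ[K] N) (d' : M' →ₗ[K] N) (φ : M →ₗ[K] M') (h : d = d' ∘ₗ φ) :
    ker d →ₗ[K] ker d' :=
  (φ ∘ₗ (ker d).subtype).codRestrict (ker d') (fun x => by
    have hx : d x.1 = 0 := x.2
    have h2 := LinearMap.congr_fun h x.1
    simp only [mem_ker, coe_comp, Submodule.coe_subtype, Function.comp_apply] at h2 ⊢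
    rw [← h2, hx])

/-- The map `ker d' → coker φ`. -/
def kerToCoker (d' : M' →ₗ[K] N) (φ : M →ₗ[K] M') : ker d' →ₗ[K] M' ⧸ range φ :=
  (range φ).mkQ ∘ₗ (ker d').subtype

/-- The connecting map `coker φ → coker d`, `[x] ↦ [d' x]`. -/
def cokerToCoker (d : M →ₗ[K] N) (d' : M' →ₗ[K] N) (φ : M →ₗ[K] M') (h : d = d' ∘ₗ φ) :
    (M' ⧸ range φ) →ₗ[K] N ⧸ range d :=
  (range φ).liftQ ((range d).mkQ ∘ₗ d') (by
    rintro _ ⟨y, rfl⟩
    simp only [mem_ker, coe_comp, Function.comp_apply, Submodule.mkQ_apply,
      Submodule.Quotient.mk_eq_zero]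
    exact ⟨y, by rw [h]; rfl⟩)

/-- The surjection `coker d → coker d'`. -/
def cokerMap (d : M →ₗ[K] N) (d' : M' →ₗ[K] N) (φ : M →ₗ[K] M') (h : d = d' ∘ₗ φ) :
    (N ⧸ range d) →ₗ[K] N ⧸ range d' :=
  (range d).mapQ (range d') LinearMap.id (by
    rintro _ ⟨y, rfl⟩
    simp only [Submodule.comap_id]
    exact ⟨φ y, by rw [h]; rfl⟩)

lemma cokerMap_surjective (d : M →ₗ[K] N) (d' : M' →ₗ[K] N) (φ : M →ₗ[K] M')
    (h : d = d' ∘ₗ φ) : Function.Surjective (cokerMap d d' φ h) := by
  intro z
  obtain ⟨n, rfl⟩ := (range d').mkQ_surjective z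
  exact ⟨(range d).mkQ n, rfl⟩

lemma range_kerMap (d : M →ₗ[K] N) (d' : M' →ₗ[K] N) (φ : M →ₗ[K] M') (h : d = d' ∘ₗ φ) :
    range (kerMap d d' φ h) = ker (kerToCoker d' φ) := by
  ext x
  constructor
  · rintro ⟨y, rfl⟩
    simp only [kerToCoker, mem_ker, coe_comp, Submodule.coe_subtype, Function.comp_apply,
      Submodule.mkQ_apply, Submodule.Quotient.mk_eq_zero]
    exact ⟨y.1, rfl⟩
  · intro hx
    simp only [kerToCoker, mem_ker, coe_comp, Submodule.coe_subtype, Function.comp_apply,
      Submodule.mkQ_apply, Submodule.Quotient.mk_eq_zero] at hx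
    obtain ⟨y, hy⟩ := hx
    have hy0 : d y = 0 := by
      rw [h, coe_comp, Function.comp_apply, hy]; exact x.2
    exact ⟨⟨y, hy0⟩, Subtype.ext hy⟩

lemma range_kerToCoker (d : M →ₗ[K] N) (d' : M' →ₗ[K] N) (φ : M →ₗ[K] M') (h : d = d' ∘ₗ φ) :
    range (kerToCoker d' φ) = ker (cokerToCoker d d' φ h) := by
  ext z
  constructor
  · rintro ⟨x, rfl⟩
    have hx : d' x.1 = 0 := x.2
    simp [kerToCoker, cokerToCoker, hx]
  · intro hz
    obtain ⟨x, rfl⟩ := (range φ).mkQ_surjective z
    simp only [cokerToCoker, mem_ker, Submodule.mkQ_apply, Submodule.liftQ_apply, coe_comp,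
      Function.comp_apply, Submodule.Quotient.mk_eq_zero] at hz
    obtain ⟨y, hy⟩ := hz
    have hxy : d' (x - φ y) = 0 := by
      rw [map_sub, ← hy, h]; simp
    refine ⟨⟨x - φ y, hxy⟩, ?_⟩
    simp only [kerToCoker, coe_comp, Submodule.coe_subtype, Function.comp_apply,
      Submodule.mkQ_apply, Submodule.Quotient.mk_sub]
    rw [(Submodule.Quotient.mk_eq_zero _).2 (LinearMap.mem_range_self φ y), sub_zero]

lemma range_cokerToCoker (d : M →ₗ[K] N) (d' : M' →ₗ[K] N) (φ : M →ₗ[K] M')
    (h : d = d' ∘ₗ φ) : range (cokerToCoker d d' φ h) = ker (cokerMap d d' φ h) := by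
  ext z
  constructor
  · rintro ⟨x, rfl⟩
    obtain ⟨x, rfl⟩ := (range φ).mkQ_surjective x
    simp only [cokerToCoker, cokerMap, mem_ker, Submodule.mkQ_apply, Submodule.liftQ_apply,
      coe_comp, Function.comp_apply, Submodule.mapQ_apply, id_coe, id_eq,
      Submodule.Quotient.mk_eq_zero]
    exact ⟨x, rfl⟩
  · intro hz
    obtain ⟨n, rfl⟩ := (range d).mkQ_surjective z
    simp only [cokerMap, mem_ker, Submodule.mkQ_apply, Submodule.mapQ_apply, id_coe, id_eq,
      Submodule.Quotient.mk_eq_zero] at hz
    obtain ⟨x, rfl⟩ := hz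
    exact ⟨(range φ).mkQ x, by simp [cokerToCoker]⟩

/-- **Euler characteristic of a composite.**  Over a field, if `d = d' ∘ φ` with `φ` injective and
`ker d'`, `coker d`, `coker φ` finite-dimensional, then `ker d` and `coker d'` are
finite-dimensional and `χ(d') = χ(d) + dim coker φ`. -/
theorem euler_comp (d : M →ₗ[K] N) (d' : M' →ₗ[K] N) (φ : M →ₗ[K] M') (h : d = d' ∘ₗ φ)
    (hφ : Function.Injective φ) [FiniteDimensional K (ker d')]
    [FiniteDimensional K (N ⧸ range d)] [FiniteDimensional K (M' ⧸ range φ)] :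
    FiniteDimensional K (ker d) ∧ FiniteDimensional K (N ⧸ range d') ∧
      (finrank K (ker d') : ℤ) - finrank K (N ⧸ range d') =
        finrank K (ker d) - finrank K (N ⧸ range d) + finrank K (M' ⧸ range φ) := by
  have hinj : Function.Injective (kerMap d d' φ h) := by
    intro x y hxy
    have := congrArg Subtype.val hxy
    exact Subtype.ext (hφ this)
  have fd1 : FiniteDimensional K (ker d) := FiniteDimensional.of_injective _ hinj
  have fd2 : FiniteDimensional K (N ⧸ range d') :=
    Module.Finite.of_surjective _ (cokerMap_surjective d d' φ h)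
  refine ⟨fd1, fd2, ?_⟩
  have e1 := finrank_range_add_finrank_ker (kerToCoker d' φ)
  have e2 := finrank_range_add_finrank_ker (cokerToCoker d d' φ h)
  have e3 := finrank_range_add_finrank_ker (cokerMap d d' φ h)
  have e4 : finrank K (range (kerMap d d' φ h)) = finrank K (ker d) :=
    finrank_range_of_inj hinj
  rw [← range_kerMap d d' φ h, e4] at e1
  rw [← range_kerToCoker d d' φ h] at e2
  rw [← range_cokerToCoker d d' φ h, range_eq_top.2 (cokerMap_surjective d d' φ h),
    finrank_top] at e3
  omega

/-- Variant of `euler_comp` assuming finite-dimensionality of `coker d'` instead of `coker d`. -/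
theorem euler_comp' (d : M →ₗ[K] N) (d' : M' →ₗ[K] N) (φ : M →ₗ[K] M') (h : d = d' ∘ₗ φ)
    (hφ : Function.Injective φ) [FiniteDimensional K (ker d')]
    [FiniteDimensional K (N ⧸ range d')] [FiniteDimensional K (M' ⧸ range φ)] :
    FiniteDimensional K (ker d) ∧ FiniteDimensional K (N ⧸ range d) ∧
      (finrank K (ker d') : ℤ) - finrank K (N ⧸ range d') =
        finrank K (ker d) - finrank K (N ⧸ range d) + finrank K (M' ⧸ range φ) := by
  have fd : FiniteDimensional K (N ⧸ range d) := by
    have h1 : Module.Finite K (ker (cokerMap d d' φ h)) := by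
      rw [← range_cokerToCoker d d' φ h]
      infer_instance
    have h2 : Module.Finite K ((N ⧸ range d) ⧸ ker (cokerMap d d' φ h)) :=
      Module.Finite.equiv
        ((cokerMap d d' φ h).quotKerEquivOfSurjective (cokerMap_surjective d d' φ h)).symm
    exact Module.Finite.of_submodule_quotient (ker (cokerMap d d' φ h))
  obtain ⟨h1, -, h3⟩ := euler_comp d d' φ h hφ
  exact ⟨h1, fd, h3⟩

end Field

section BaseChange

variable {A : Type*} [CommRing A] {M M' : Type*} [AddCommGroup M] [Module A M]
  [AddCommGroup M'] [Module A M']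

open LinearMap

/-- An injective linear map whose cokernel is projective has a linear retraction. -/
theorem exists_leftInverse_of_projective_coker (φ : M →ₗ[A] M') (hφ : Function.Injective φ)
    [Module.Projective A (M' ⧸ range φ)] : ∃ ρ : M' →ₗ[A] M, ρ ∘ₗ φ = LinearMap.id := by
  obtain ⟨σ, hσ⟩ := Module.projective_lifting_property (range φ).mkQ LinearMap.id
    (range φ).mkQ_surjective
  -- `x - σ [x]` lies in `range φ`
  have hmem : ∀ x : M', x - σ ((range φ).mkQ x) ∈ range φ := by
    intro x
    rw [← Submodule.Quotient.mk_eq_zero, Submodule.Quotient.mk_sub]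
    have := LinearMap.congr_fun hσ ((range φ).mkQ x)
    simp only [coe_comp, Function.comp_apply, id_coe, id_eq, Submodule.mkQ_apply] at this
    simp only [Submodule.mkQ_apply]
    rw [this, sub_self]
  let e := LinearEquiv.ofInjective φ hφ
  let τ : M' →ₗ[A] range φ :=
    (LinearMap.id - σ ∘ₗ (range φ).mkQ).codRestrict (range φ) (fun x => by simpa using hmem x)
  refine ⟨e.symm.toLinearMap ∘ₗ τ, ?_⟩
  ext x
  simp only [coe_comp, LinearEquiv.coe_coe, Function.comp_apply, id_coe, id_eq]
  have hτ : τ (φ x) = e x := by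
    apply Subtype.ext
    simp only [τ, codRestrict_apply, LinearMap.sub_apply, id_coe, id_eq, coe_comp,
      Function.comp_apply, Submodule.mkQ_apply, e, LinearEquiv.ofInjective_apply]
    rw [(Submodule.Quotient.mk_eq_zero _).2 (LinearMap.mem_range_self φ x), map_zero, sub_zero]
  rw [hτ, LinearEquiv.symm_apply_apply]

/-- Base change preserves injectivity of a map with projective cokernel. -/
theorem baseChange_injective_of_projective_coker (φ : M →ₗ[A] M') (hφ : Function.Injective φ)
    [Module.Projective A (M' ⧸ range φ)] (B : Type*) [CommRing B] [Algebra A B] :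
    Function.Injective (φ.baseChange B) := by
  obtain ⟨ρ, hρ⟩ := exists_leftInverse_of_projective_coker φ hφ
  have : (ρ.baseChange B) ∘ₗ (φ.baseChange B) = LinearMap.id := by
    rw [← LinearMap.baseChange_comp, hρ, LinearMap.baseChange_id]
  exact Function.LeftInverse.injective (g := ρ.baseChange B) (fun x => LinearMap.congr_fun this x)

/-- The cokernel of a base-changed map is the base change of the cokernel (`B`-linearly). -/
noncomputable def cokerBaseChangeEquiv (φ : M →ₗ[A] M') (B : Type*) [CommRing B] [Algebra A B] :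
    ((B ⊗[A] M') ⧸ range (φ.baseChange B)) ≃ₗ[B] B ⊗[A] (M' ⧸ range φ) :=
  have hex : Function.Exact (φ.baseChange B) ((range φ).mkQ.baseChange B) := by
    have := lTensor_exact B (LinearMap.exact_map_mkQ_range φ) (range φ).mkQ_surjective
    intro x
    simpa [LinearMap.baseChange_eq_ltensor] using this x
  have hsurj : Function.Surjective ((range φ).mkQ.baseChange B) := by
    have := LinearMap.lTensor_surjective B (range φ).mkQ_surjective
    intro x
    obtain ⟨y, hy⟩ := this x
    exact ⟨y, by simpa [LinearMap.baseChange_eq_ltensor] using hy⟩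
  (Submodule.quotEquivOfEq _ _ (LinearMap.exact_iff.1 hex).symm).trans
    (LinearMap.quotKerEquivOfSurjective _ hsurj)

/-- Surjectivity is preserved by base change. -/
theorem baseChange_surjective {N : Type*} [AddCommGroup N] [Module A N] (d : M →ₗ[A] N)
    (hd : Function.Surjective d) (B : Type*) [CommRing B] [Algebra A B] :
    Function.Surjective (d.baseChange B) := by
  have := LinearMap.lTensor_surjective B hd
  intro x
  obtain ⟨y, hy⟩ := this x
  exact ⟨y, by simpa [LinearMap.baseChange_eq_ltensor] using hy⟩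

end BaseChange

end Fermat.Agent.Jac.P1CohChi.Complex
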