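/-
Fermat/Agent/Jac/P1CohChi/Twist.lean  (helper14, programme JAC, brick A1c)

The twist `L.twist c m` (`m : ℤ`) of a two-chart module by the divisor `m • (s = 0)`:
same modules `N0`, `N1`, `N01`, same `r0`, and `r1` replaced by `t^m • r1`.
The Čech differentials satisfy `(L.twist c m).d = (L.twist c (m+k)).d ∘ (id × s^k)`.

Only `QC2.twist` lives in the namespace `Fermat.Agent.Jac.QC2` (for dot notation); everything else
is in `Fermat.Agent.Jac.P1CohChi`.
-/
import Fermat.Agent.Jac.Core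

set_option autoImplicit false
set_option linter.unusedSectionVars false

universe u

open TensorProduct

namespace Fermat.Agent.Jac

variable {A R0 R1 R01 : Type u} [CommRing A] [CommRing R0] [CommRing R1] [CommRing R01]
  [Algebra A R0] [Algebra A R1] [Algebra A R01] [Algebra R0 R01] [Algebra R1 R01]
  [IsScalarTower A R0 R01] [IsScalarTower A R1 R01]

namespace P1CohChi

/-- The image of `t` in `R01`, as a unit (its inverse is the image of `s`). -/
def tUnit (c : TwoChart A R0 R1 R01) : R01ˣ where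
  val := algebraMap R0 R01 c.t
  inv := algebraMap R1 R01 c.s
  val_inv := c.ts
  inv_val := (mul_comm _ _).trans c.ts

@[simp] lemma tUnit_val (c : TwoChart A R0 R1 R01) :
    (tUnit c : R01) = algebraMap R0 R01 c.t := rfl

@[simp] lemma tUnit_inv_val (c : TwoChart A R0 R1 R01) :
    (((tUnit c)⁻¹ : R01ˣ) : R01) = algebraMap R1 R01 c.s := rfl

/-- The twisted restriction map `x ↦ t^m • r1 x`. -/
def twistR1 (c : TwoChart A R0 R1 R01) (L : QC2 A R0 R1 R01) (m : ℤ) : L.N1 →ₗ[R1] L.N01 where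
  toFun x := ((tUnit c ^ m : R01ˣ) : R01) • L.r1 x
  map_add' x y := by rw [map_add, smul_add]
  map_smul' b x := by
    rw [RingHom.id_apply, map_smul, ← algebraMap_smul R01 b (L.r1 x),
      ← algebraMap_smul R01 b (((tUnit c ^ m : R01ˣ) : R01) • L.r1 x), smul_comm]

@[simp] lemma twistR1_apply (c : TwoChart A R0 R1 R01) (L : QC2 A R0 R1 R01) (m : ℤ) (x : L.N1) :
    twistR1 c L m x = ((tUnit c ^ m : R01ˣ) : R01) • L.r1 x := rfl

lemma isBaseChange_twistR1 (c : TwoChart A R0 R1 R01) (L : QC2 A R0 R1 R01) (m : ℤ) :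
    IsBaseChange R01 (twistR1 c L m) :=
  (IsBaseChange.iff_of_equiv_comm (LinearEquiv.refl R1 L.N1)
    (LinearEquiv.smulOfUnit (tUnit c ^ m : R01ˣ)) (by ext x; rfl)).1 L.bc1

end P1CohChi

/-- The twist `L(m)`: sections on the chart at infinity are allowed a pole of order `≤ m` along
`s = 0`.  Same modules as `L`; the restriction map `r1` is multiplied by `t^m`. -/
@[reducible] def QC2.twist (c : TwoChart A R0 R1 R01) (L : QC2 A R0 R1 R01) (m : ℤ) :
    QC2 A R0 R1 R01 where
  N0 := L.N0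
  N1 := L.N1
  N01 := L.N01
  r0 := L.r0
  r1 := P1CohChi.twistR1 c L m
  bc0 := L.bc0
  bc1 := P1CohChi.isBaseChange_twistR1 c L m

namespace P1CohChi

lemma twist_d_apply (c : TwoChart A R0 R1 R01) (L : QC2 A R0 R1 R01) (m : ℤ)
    (x : L.N0 × L.N1) :
    (L.twist c m).d x = L.r0 x.1 - ((tUnit c ^ m : R01ˣ) : R01) • L.r1 x.2 := by
  simp [QC2.d, sub_eq_add_neg]

lemma d_apply (L : QC2 A R0 R1 R01) (x : L.N0 × L.N1) : L.d x = L.r0 x.1 - L.r1 x.2 := by
  simp [QC2.d, sub_eq_add_neg]

/-- `L.twist c 0` has the same differential as `L`. -/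
lemma twist_zero_d (c : TwoChart A R0 R1 R01) (L : QC2 A R0 R1 R01) :
    (L.twist c 0).d = L.d := by
  ext x <;> simp [QC2.d]

/-- Multiplication by `s^k` on the chart at infinity: the map of complexes `L(m) → L(m+k)`. -/
def shift (c : TwoChart A R0 R1 R01) (L : QC2 A R0 R1 R01) (k : ℕ) :
    (L.N0 × L.N1) →ₗ[A] (L.N0 × L.N1) :=
  LinearMap.prodMap LinearMap.id ((LinearMap.lsmul R1 L.N1 (c.s ^ k)).restrictScalars A)

@[simp] lemma shift_apply (c : TwoChart A R0 R1 R01) (L : QC2 A R0 R1 R01) (k : ℕ)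
    (x : L.N0 × L.N1) : shift c L k x = (x.1, c.s ^ k • x.2) := rfl

/-- The differential of `L(m)` is the differential of `L(m+k)` composed with `id × s^k`. -/
theorem twist_d_comp_shift (c : TwoChart A R0 R1 R01) (L : QC2 A R0 R1 R01) (m : ℤ) (k : ℕ) :
    (L.twist c m).d = (L.twist c (m + k)).d ∘ₗ shift c L k := by
  apply LinearMap.ext
  intro x
  rw [LinearMap.comp_apply, twist_d_apply, twist_d_apply, shift_apply]
  congr 1
  dsimp only
  rw [map_smul, ← algebraMap_smul R01 (c.s ^ k) (L.r1 x.2), smul_smul, map_pow,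
    ← tUnit_inv_val c, ← Units.val_pow_eq_pow_val, ← Units.val_mul, zpow_add, zpow_natCast,
    mul_assoc, ← mul_pow, mul_inv_cancel, one_pow, mul_one]

lemma shift_injective (c : TwoChart A R0 R1 R01) (L : QC2 A R0 R1 R01) (k : ℕ)
    (hs : IsSMulRegular L.N1 c.s) : Function.Injective (shift c L k) := by
  intro x y h
  simp only [shift_apply, Prod.mk.injEq] at h
  exact Prod.ext h.1 ((hs.pow k) h.2)

/-- The Hom of two-chart modules `L(m) → L(m+k)` (identity on `N0`, `N01`; `s^k` on `N1`). -/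
def twistHom (c : TwoChart A R0 R1 R01) (L : QC2 A R0 R1 R01) (m : ℤ) (k : ℕ) :
    QC2.Hom (L.twist c m) (L.twist c (m + k)) where
  f0 := LinearMap.id
  f1 := LinearMap.lsmul R1 L.N1 (c.s ^ k)
  f01 := LinearMap.id
  comm0 _ := rfl
  comm1 x := by
    have h := LinearMap.congr_fun (twist_d_comp_shift c L m k) ((0 : L.N0), x)
    rw [LinearMap.comp_apply, twist_d_apply, twist_d_apply, shift_apply] at h
    have h' : ((tUnit c ^ m : R01ˣ) : R01) • L.r1 x
        = ((tUnit c ^ (m + k) : R01ˣ) : R01) • c.s ^ k • L.r1 x := by simpa using h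
    change ((tUnit c ^ m : R01ˣ) : R01) • L.r1 x
        = ((tUnit c ^ (m + k) : R01ˣ) : R01) • L.r1 (c.s ^ k • x)
    rw [h', map_smul]

end P1CohChi

end Fermat.Agent.Jac
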