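/-
Fermat/Agent/Jac/P1CohChi/Vanish.lean  (helper14, programme JAC, brick A1c)

Uniform vanishing: if `N0` is finite over `A[t]` then `H¹(L(m)) = 0` for all `m ≥ m₀`, and the same
after any base change `A → A'` (with the same `m₀`).
-/
import Fermat.Agent.Jac.P1CohChi.Twist
import Fermat.Agent.Jac.P1CohChi.Complex

set_option autoImplicit false
set_option linter.unusedSectionVars false

universe u

open TensorProduct Polynomial

namespace Fermat.Agent.Jac.P1CohChi

variable {A R0 R1 R01 : Type u} [CommRing A] [CommRing R0] [CommRing R1] [CommRing R01]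
  [Algebra A R0] [Algebra A R1] [Algebra A R01] [Algebra R0 R01] [Algebra R1 R01]
  [IsScalarTower A R0 R01] [IsScalarTower A R1 R01]

/-- `t^k` as an element of `R01`, for `k : ℤ`. -/
def uz (c : TwoChart A R0 R1 R01) (k : ℤ) : R01 := ((tUnit c ^ k : R01ˣ) : R01)

lemma uz_add (c : TwoChart A R0 R1 R01) (a b : ℤ) : uz c (a + b) = uz c a * uz c b := by
  simp [uz, zpow_add]

@[simp] lemma uz_zero (c : TwoChart A R0 R1 R01) : uz c 0 = 1 := by simp [uz]

lemma uz_natCast (c : TwoChart A R0 R1 R01) (n : ℕ) :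
    uz c (n : ℤ) = algebraMap R0 R01 (c.t ^ n) := by
  simp [uz]

lemma uz_neg_natCast (c : TwoChart A R0 R1 R01) (n : ℕ) :
    uz c (-(n : ℤ)) = algebraMap R1 R01 (c.s ^ n) := by
  simp only [uz, zpow_neg, zpow_natCast, map_pow]
  rw [← inv_pow, Units.val_pow_eq_pow_val, tUnit_inv_val]

lemma uz_smul_uz_smul {N : Type*} [AddCommGroup N] [Module R01 N] (c : TwoChart A R0 R1 R01)
    (a b : ℤ) (z : N) : uz c a • uz c b • z = uz c (a + b) • z := by
  rw [smul_smul, uz_add]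

lemma uz_neg_smul_uz_smul {N : Type*} [AddCommGroup N] [Module R01 N] (c : TwoChart A R0 R1 R01)
    (a : ℤ) (z : N) : uz c (-a) • uz c a • z = z := by
  rw [uz_smul_uz_smul, neg_add_cancel, uz_zero, one_smul]

variable (c : TwoChart A R0 R1 R01) (L : QC2 A R0 R1 R01)

lemma uz_natCast_smul (n : ℕ) (z : L.N01) : uz c (n : ℤ) • z = (c.t ^ n) • z := by
  rw [uz_natCast, algebraMap_smul]

lemma uz_neg_natCast_smul (n : ℕ) (z : L.N01) : uz c (-(n : ℤ)) • z = (c.s ^ n) • z := by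
  rw [uz_neg_natCast, algebraMap_smul]

/-- Every element of `N01` is `t^{-n} • r0 x`. -/
lemma exists_eq_uz_smul_r0 (z : L.N01) : ∃ (n : ℕ) (x : L.N0), z = uz c (-(n : ℤ)) • L.r0 x := by
  have : IsLocalization (Submonoid.powers c.t) R01 := c.away0
  have : IsLocalizedModule (Submonoid.powers c.t) L.r0 :=
    (isLocalizedModule_iff_isBaseChange (Submonoid.powers c.t) R01 L.r0).2 L.bc0
  obtain ⟨⟨x, ⟨_, n, rfl⟩⟩, hx⟩ := IsLocalizedModule.surj (Submonoid.powers c.t) L.r0 z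
  refine ⟨n, x, ?_⟩
  have hx' : (c.t ^ n) • z = L.r0 x := hx
  rw [← hx', ← uz_natCast_smul, uz_neg_smul_uz_smul]

/-- Every element of `N01` is `t^n • r1 y`. -/
lemma exists_eq_uz_smul_r1 (z : L.N01) : ∃ (n : ℕ) (y : L.N1), z = uz c (n : ℤ) • L.r1 y := by
  have : IsLocalization (Submonoid.powers c.s) R01 := c.away1
  have : IsLocalizedModule (Submonoid.powers c.s) L.r1 :=
    (isLocalizedModule_iff_isBaseChange (Submonoid.powers c.s) R01 L.r1).2 L.bc1
  obtain ⟨⟨y, ⟨_, n, rfl⟩⟩, hy⟩ := IsLocalizedModule.surj (Submonoid.powers c.s) L.r1 z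
  refine ⟨n, y, ?_⟩
  have hy' : (c.s ^ n) • z = L.r1 y := hy
  rw [← hy', ← uz_neg_natCast_smul]
  have := uz_neg_smul_uz_smul c (-(n : ℤ)) z
  rw [neg_neg] at this
  exact this.symm

lemma twist_d_apply' (m : ℤ) (x : L.N0 × L.N1) :
    (L.twist c m).d x = L.r0 x.1 - uz c m • L.r1 x.2 := twist_d_apply c L m x

lemma r0_mem_range_twist_d (m : ℤ) (x : L.N0) : L.r0 x ∈ LinearMap.range (L.twist c m).d :=
  ⟨(x, 0), by rw [twist_d_apply']; simp⟩

lemma uz_smul_r1_mem_range_twist_d (m : ℤ) (y : L.N1) :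
    uz c m • L.r1 y ∈ LinearMap.range (L.twist c m).d :=
  ⟨(0, -y), by rw [twist_d_apply']; simp⟩

lemma r1_smul (b : R1) (y : L.N1) : L.r1 (b • y) = algebraMap R1 R01 b • L.r1 y := by
  rw [map_smul, algebraMap_smul]

lemma r0_smul (b : R0) (x : L.N0) : L.r0 (b • x) = algebraMap R0 R01 b • L.r0 x := by
  rw [map_smul, algebraMap_smul]

/-- Key computation: if `r0 x = t^n • r1 y` and `n ≤ m`, then `t^{-e} • r0 x` lies in the range of
the differential of `L(m)` for every `e ≥ 0`. -/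
lemma uz_neg_smul_r0_mem (m : ℤ) (n : ℕ) (hnm : (n : ℤ) ≤ m) (x : L.N0) (y : L.N1)
    (hxy : L.r0 x = uz c (n : ℤ) • L.r1 y) (e : ℕ) :
    uz c (-(e : ℤ)) • L.r0 x ∈ LinearMap.range (L.twist c m).d := by
  obtain ⟨j, hj⟩ : ∃ j : ℕ, (j : ℤ) = m - n + e := ⟨(m - n + e).toNat, by omega⟩
  have : uz c (-(e : ℤ)) • L.r0 x = uz c m • L.r1 (c.s ^ j • y) := by
    rw [hxy, r1_smul, ← uz_neg_natCast, uz_smul_uz_smul, uz_smul_uz_smul]
    congr 2
    omega
  rw [this]
  exact uz_smul_r1_mem_range_twist_d c L m _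

/-- The `A`-submodule of those `x : N0` all of whose translates `t^{-e} • r0 x` lie in `W`. -/
def goodSub (W : Submodule A L.N01) : Submodule A L.N0 where
  carrier := {x | ∀ e : ℕ, uz c (-(e : ℤ)) • L.r0 x ∈ W}
  add_mem' := by
    intro x y hx hy e
    rw [map_add, smul_add]
    exact W.add_mem (hx e) (hy e)
  zero_mem' := by
    intro e
    simp
  smul_mem' := by
    intro a x hx e
    have : uz c (-(e : ℤ)) • L.r0 (a • x) = a • uz c (-(e : ℤ)) • L.r0 x := by
      rw [← algebraMap_smul R0 a x, r0_smul, ← IsScalarTower.algebraMap_apply,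
        ← algebraMap_smul R01 a (uz c (-(e : ℤ)) • L.r0 x), smul_comm]
    rw [this]
    exact W.smul_mem a (hx e)

lemma mem_goodSub (W : Submodule A L.N01) (x : L.N0) :
    x ∈ goodSub c L W ↔ ∀ e : ℕ, uz c (-(e : ℤ)) • L.r0 x ∈ W := Iff.rfl

lemma goodSub_invt (W : Submodule A L.N01) (hW : ∀ x : L.N0, L.r0 x ∈ W) :
    goodSub c L W ∈ Module.End.invtSubmodule (Algebra.lsmul A A L.N0 c.t) := by
  rw [Module.End.mem_invtSubmodule]
  intro x hx e
  simp only [Algebra.lsmul_coe]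
  rcases Nat.eq_zero_or_pos e with rfl | he
  · simpa using hW (c.t • x)
  · obtain ⟨e', rfl⟩ : ∃ e', e = e' + 1 := ⟨e - 1, by omega⟩
    have : uz c (-((e' + 1 : ℕ) : ℤ)) • L.r0 (c.t • x) = uz c (-(e' : ℤ)) • L.r0 x := by
      rw [r0_smul, ← pow_one c.t, ← uz_natCast, uz_smul_uz_smul]
      congr 2
      push_cast
      ring
    rw [this]
    exact hx e'

/-- If `W` contains `r0 N0` and all `t^{-e} • r0 g` for `g` in a generating set of the
`A[X]`-module `N0`, then `W = ⊤`. -/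
lemma eq_top_of_generators (W : Submodule A L.N01) (hW : ∀ x : L.N0, L.r0 x ∈ W)
    (S : Set (Module.AEval A L.N0 c.t)) (hS : Submodule.span A[X] S = ⊤)
    (hgen : ∀ g ∈ S, ∀ e : ℕ, uz c (-(e : ℤ)) • L.r0 ((Module.AEval.of A L.N0 c.t).symm g) ∈ W) :
    W = ⊤ := by
  let P : Submodule A[X] (Module.AEval A L.N0 c.t) :=
    Module.AEval.mapSubmodule A L.N0 c.t ⟨goodSub c L W, goodSub_invt c L W hW⟩
  have hP : P = ⊤ := by
    rw [eq_top_iff, ← hS, Submodule.span_le]
    intro g hg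
    change g ∈ P
    rw [Module.AEval.mem_mapSubmodule_apply]
    exact hgen g hg
  rw [eq_top_iff]
  intro z _
  obtain ⟨n, x, rfl⟩ := exists_eq_uz_smul_r0 c L z
  have hx : Module.AEval.of A L.N0 c.t x ∈ P := hP ▸ Submodule.mem_top
  rw [Module.AEval.mem_mapSubmodule_apply] at hx
  exact hx n

/-- **Uniform vanishing.** If `N0` is a finite `A[t]`-module, then the Čech differential of `L(m)`
is surjective for all `m ≥ m₀`. -/
theorem exists_twist_d_surjective [Module.Finite A[X] (Module.AEval A L.N0 c.t)] :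
    ∃ m₀ : ℕ, ∀ m : ℤ, (m₀ : ℤ) ≤ m → Function.Surjective (L.twist c m).d := by
  classical
  obtain ⟨S, hS⟩ := (Module.finite_def (R := A[X]) (M := Module.AEval A L.N0 c.t)).1 inferInstance
  choose n y hy using fun g : Module.AEval A L.N0 c.t =>
    exists_eq_uz_smul_r1 c L (L.r0 ((Module.AEval.of A L.N0 c.t).symm g))
  refine ⟨S.sup n, fun m hm => ?_⟩
  rw [← LinearMap.range_eq_top]
  apply eq_top_of_generators c L _ (r0_mem_range_twist_d c L m) (S : Set _) hS
  intro g hg e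
  have hng : (n g : ℤ) ≤ m := le_trans (by exact_mod_cast Finset.le_sup hg) hm
  exact uz_neg_smul_r0_mem c L m (n g) hng _ (y g) (hy g) e

/-- `H¹(L(m)) = 0` for `m ≥ m₀`. -/
theorem exists_twist_H1_subsingleton (hF : L.FiniteOverLine c) :
    ∃ m₀ : ℕ, ∀ m : ℤ, (m₀ : ℤ) ≤ m → Subsingleton (L.twist c m).H1 := by
  have := hF.fin0
  obtain ⟨m₀, h⟩ := exists_twist_d_surjective c L
  refine ⟨m₀, fun m hm => ?_⟩
  have := LinearMap.range_eq_top.2 (h m hm)
  exact Submodule.Quotient.subsingleton_iff.2 this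

/-- `H¹` of every base change of `L(m)` vanishes for `m ≥ m₀` (uniform `m₀`). -/
theorem exists_twist_H1BC_subsingleton (hF : L.FiniteOverLine c) :
    ∃ m₀ : ℕ, ∀ m : ℤ, (m₀ : ℤ) ≤ m → ∀ (A' : Type u) [CommRing A'] [Algebra A A'],
      Subsingleton ((L.twist c m).H1BC A') := by
  have := hF.fin0
  obtain ⟨m₀, h⟩ := exists_twist_d_surjective c L
  refine ⟨m₀, fun m hm A' _ _ => ?_⟩
  have := LinearMap.range_eq_top.2 (Complex.baseChange_surjective _ (h m hm) A')
  exact Submodule.Quotient.subsingleton_iff.2 this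

end Fermat.Agent.Jac.P1CohChi
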