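/-
Fermat/Agent/Jac/P1CohChi/Chi.lean  (helper14, programme JAC, brick A1c)

The fibrewise Euler characteristic `L.chi : PrimeSpectrum A → ℤ` of a two-chart module, its
behaviour under twisting, and local constancy (given the conclusion of brick A1b.T5 for the
high twists of `L`).
-/
import Fermat.Agent.Jac.P1CohChi.Vanish
import Fermat.Agent.Jac.P1CohChi.Fibre

set_option autoImplicit false
set_option linter.unusedSectionVars false

universe u

open TensorProduct Polynomial

namespace Fermat.Agent.Jac

variable {A R0 R1 R01 : Type u} [CommRing A] [CommRing R0] [CommRing R1] [CommRing R01]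
  [Algebra A R0] [Algebra A R1] [Algebra A R01] [Algebra R0 R01] [Algebra R1 R01]
  [IsScalarTower A R0 R01] [IsScalarTower A R1 R01]

/-- Euler characteristic `dim H⁰ - dim H¹` of the base change of `L` to an `A`-field `K`. -/
noncomputable def QC2.chiField (L : QC2 A R0 R1 R01) (K : Type u) [Field K] [Algebra A K] : ℤ :=
  (Module.finrank K (L.H0BC K) : ℤ) - Module.finrank K (L.H1BC K)

/-- The fibrewise Euler characteristic of `L` at a point `p` of `Spec A`. -/
noncomputable def QC2.chi (L : QC2 A R0 R1 R01) (p : PrimeSpectrum A) : ℤ :=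
  L.chiField p.asIdeal.ResidueField

namespace P1CohChi

variable (c : TwoChart A R0 R1 R01) (L : QC2 A R0 R1 R01)

/-- The fibre at infinity of order `k`: `N1 / s^k N1`. -/
abbrev QInf (k : ℕ) : Type u := L.N1 ⧸ Fibre.sSub A (c.s ^ k) L.N1

/-- The projection `N0 × N1 → N1 / s^k N1`. -/
def toQInf (k : ℕ) : (L.N0 × L.N1) →ₗ[A] QInf c L k :=
  (Fibre.sSub A (c.s ^ k) L.N1).mkQ ∘ₗ LinearMap.snd A L.N0 L.N1

lemma toQInf_apply (k : ℕ) (x : L.N0 × L.N1) :
    toQInf c L k x = Submodule.Quotient.mk x.2 := rfl

lemma toQInf_surjective (k : ℕ) : Function.Surjective (toQInf c L k) := by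
  intro q
  obtain ⟨y, rfl⟩ := Submodule.Quotient.mk_surjective _ q
  exact ⟨(0, y), rfl⟩

lemma ker_toQInf (k : ℕ) : LinearMap.ker (toQInf c L k) = LinearMap.range (shift c L k) := by
  ext x
  rw [LinearMap.mem_ker, toQInf_apply, Submodule.Quotient.mk_eq_zero, LinearMap.mem_range,
    LinearMap.mem_range]
  constructor
  · rintro ⟨y, hy⟩
    exact ⟨(x.1, y), Prod.ext rfl hy⟩
  · rintro ⟨y, rfl⟩
    exact ⟨y.2, rfl⟩

/-- The cokernel of `id × s^k` is `N1 / s^k N1`. -/
noncomputable def cokerShiftEquiv (k : ℕ) :
    ((L.N0 × L.N1) ⧸ LinearMap.range (shift c L k)) ≃ₗ[A] QInf c L k :=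
  (Submodule.quotEquivOfEq _ _ (ker_toQInf c L k).symm).trans
    ((toQInf c L k).quotKerEquivOfSurjective (toQInf_surjective c L k))

/-- **Euler characteristic of a twist**, one step.  If `s` is `N1`-regular and `N1 / s^k N1` is a
finite projective `A`-module, then for every `A`-field `K`, finite-dimensionality of the cohomology
of `L(m+k)_K` implies that of `L(m)_K`, and `χ(L(m+k)_K) = χ(L(m)_K) + dim_K (K ⊗ N1/s^k N1)`. -/
theorem chiField_twist_step (K : Type u) [Field K] [Algebra A K] (m m' : ℤ) (k : ℕ)
    (hm' : m' = m + k) (hs : IsSMulRegular L.N1 c.s)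
    [Module.Finite A (QInf c L k)] [Module.Projective A (QInf c L k)]
    (h0 : FiniteDimensional K ((L.twist c m').H0BC K))
    (h1 : FiniteDimensional K ((L.twist c m').H1BC K)) :
    FiniteDimensional K ((L.twist c m).H0BC K) ∧ FiniteDimensional K ((L.twist c m).H1BC K) ∧
      (L.twist c m').chiField K =
        (L.twist c m).chiField K + Module.finrank K (K ⊗[A] QInf c L k) := by
  subst hm'
  have hproj : Module.Projective A ((L.N0 × L.N1) ⧸ LinearMap.range (shift c L k)) :=
    Module.Projective.of_equiv (cokerShiftEquiv c L k).symm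
  have hfin : Module.Finite A ((L.N0 × L.N1) ⧸ LinearMap.range (shift c L k)) :=
    Module.Finite.equiv (cokerShiftEquiv c L k).symm
  have hφ : Function.Injective ((shift c L k).baseChange K) :=
    Complex.baseChange_injective_of_projective_coker (shift c L k)
      (shift_injective c L k hs) K
  have hcomp : (L.twist c m).dBC K = (L.twist c (m + k)).dBC K ∘ₗ (shift c L k).baseChange K := by
    rw [QC2.dBC, QC2.dBC, twist_d_comp_shift c L m k, LinearMap.baseChange_comp]
  have hfd : FiniteDimensional K
      ((K ⊗[A] (L.N0 × L.N1)) ⧸ LinearMap.range ((shift c L k).baseChange K)) :=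
    Module.Finite.equiv (Complex.cokerBaseChangeEquiv (shift c L k) K).symm
  have hrank : Module.finrank K
      ((K ⊗[A] (L.N0 × L.N1)) ⧸ LinearMap.range ((shift c L k).baseChange K)) =
        Module.finrank K (K ⊗[A] QInf c L k) :=
    LinearEquiv.finrank_eq ((Complex.cokerBaseChangeEquiv (shift c L k) K).trans
      ((cokerShiftEquiv c L k).baseChange A K _ _))
  have h0' : FiniteDimensional K (LinearMap.ker ((L.twist c (m + k)).dBC K)) := h0
  obtain ⟨e1, e2, e3⟩ := Complex.euler_comp' ((L.twist c m).dBC K) ((L.twist c (m + k)).dBC K)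
    ((shift c L k).baseChange K) hcomp hφ
  refine ⟨e1, e2, ?_⟩
  rw [hrank] at e3
  unfold QC2.chiField QC2.H0BC
  linarith

/-- Iterating `chiField_twist_step` with `k = 1`: from `L(M)` down to `L(M - k)`. -/
theorem chiField_twist_sub' (K : Type u) [Field K] [Algebra A K] (M : ℤ)
    (hs : IsSMulRegular L.N1 c.s)
    [Module.Finite A (QInf c L 1)] [Module.Projective A (QInf c L 1)]
    (h0 : FiniteDimensional K ((L.twist c M).H0BC K))
    (h1 : FiniteDimensional K ((L.twist c M).H1BC K)) (k : ℕ) :
    ∀ m : ℤ, m = M - k → FiniteDimensional K ((L.twist c m).H0BC K) ∧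
      FiniteDimensional K ((L.twist c m).H1BC K) ∧
      (L.twist c M).chiField K =
        (L.twist c m).chiField K + k * Module.finrank K (K ⊗[A] QInf c L 1) := by
  induction k with
  | zero =>
    intro m hm
    obtain rfl : m = M := by simpa using hm
    exact ⟨h0, h1, by simp⟩
  | succ k ih =>
    intro m hm
    obtain ⟨a0, a1, a2⟩ := ih (M - k) rfl
    obtain ⟨b0, b1, b2⟩ := chiField_twist_step c L K m (M - (k : ℤ)) 1
      (by rw [hm]; push_cast; ring) hs a0 a1
    refine ⟨b0, b1, ?_⟩
    rw [a2, b2]
    push_cast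
    ring

theorem chiField_twist_sub (K : Type u) [Field K] [Algebra A K] (M : ℤ)
    (hs : IsSMulRegular L.N1 c.s)
    [Module.Finite A (QInf c L 1)] [Module.Projective A (QInf c L 1)]
    (h0 : FiniteDimensional K ((L.twist c M).H0BC K))
    (h1 : FiniteDimensional K ((L.twist c M).H1BC K)) (k : ℕ) :
    FiniteDimensional K ((L.twist c (M - k)).H0BC K) ∧
      FiniteDimensional K ((L.twist c (M - k)).H1BC K) ∧
      (L.twist c M).chiField K =
        (L.twist c (M - k)).chiField K + k * Module.finrank K (K ⊗[A] QInf c L 1) :=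
  chiField_twist_sub' c L K M hs h0 h1 k _ rfl

/-- The conclusion of brick A1b.T5 for a two-chart module `M`: `H⁰(M)` is a finite projective
`A`-module whose formation commutes with arbitrary base change. -/
structure GoodH0 (M : QC2 A R0 R1 R01) : Prop where
  fin : Module.Finite A M.H0
  proj : Module.Projective A M.H0
  bij : ∀ (A' : Type u) [CommRing A'] [Algebra A A'], Function.Bijective (M.H0BCMap A')

/-- If `H¹(M) = 0` and `H⁰(M)` is good, the Euler characteristic of every fibre is the dimension of
the fibre of `H⁰(M)`. -/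
theorem chiField_of_good (M : QC2 A R0 R1 R01) (hM : GoodH0 M) (hd : Function.Surjective M.d)
    (K : Type u) [Field K] [Algebra A K] :
    FiniteDimensional K (M.H0BC K) ∧ FiniteDimensional K (M.H1BC K) ∧
      M.chiField K = Module.finrank K (K ⊗[A] M.H0) := by
  have := hM.fin
  let e : (K ⊗[A] M.H0) ≃ₗ[K] M.H0BC K := LinearEquiv.ofBijective (M.H0BCMap K) (hM.bij K)
  have hsub : Subsingleton (M.H1BC K) :=
    Submodule.Quotient.subsingleton_iff.2
      (LinearMap.range_eq_top.2 (Complex.baseChange_surjective _ hd K))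
  refine ⟨Module.Finite.equiv e, inferInstance, ?_⟩
  rw [QC2.chiField, ← e.finrank_eq, Module.finrank_zero_of_subsingleton (M := M.H1BC K)]
  simp

lemma chiField_twist_zero (K : Type u) [Field K] [Algebra A K] :
    (L.twist c 0).chiField K = L.chiField K := by
  unfold QC2.chiField QC2.H0BC QC2.H1BC QC2.dBC
  rw [twist_zero_d]

/-- **Euler characteristic formula.**  Assume `N0` is finite over `A[t]`, `s` is `N1`-regular,
`N1/sN1` is finite projective over `A`, and the high twists `L(m)` (those with surjective Čech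
differential) have good `H⁰` (brick A1b.T5).  Then there is `m₀` such that for every `A`-field `K`
the cohomology of `L_K` is finite-dimensional and
`χ(L_K) = dim_K (K ⊗ H⁰(L(m₀))) - m₀ · dim_K (K ⊗ N1/sN1)`. -/
theorem exists_chiField_formula [Module.Finite A[X] (Module.AEval A L.N0 c.t)]
    (hs : IsSMulRegular L.N1 c.s)
    [Module.Finite A (QInf c L 1)] [Module.Projective A (QInf c L 1)]
    (hT5 : ∀ m : ℤ, Function.Surjective (L.twist c m).d → GoodH0 (L.twist c m)) :
    ∃ m₀ : ℕ, GoodH0 (L.twist c m₀) ∧ ∀ (K : Type u) [Field K] [Algebra A K],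
      FiniteDimensional K (L.H0BC K) ∧ FiniteDimensional K (L.H1BC K) ∧
      L.chiField K = (Module.finrank K (K ⊗[A] (L.twist c m₀).H0) : ℤ) -
        m₀ * Module.finrank K (K ⊗[A] QInf c L 1) := by
  obtain ⟨m₀, hm₀⟩ := exists_twist_d_surjective c L
  have hsurj := hm₀ m₀ le_rfl
  have hgood := hT5 m₀ hsurj
  refine ⟨m₀, hgood, fun K _ _ => ?_⟩
  obtain ⟨f0, f1, e⟩ := chiField_of_good (L.twist c m₀) hgood hsurj K
  obtain ⟨g0, g1, e2⟩ := chiField_twist_sub c L K m₀ hs f0 f1 m₀
  rw [sub_self] at g0 g1 e2
  have hd : (L.twist c 0).dBC K = L.dBC K := by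
    rw [QC2.dBC, QC2.dBC, twist_zero_d]
  have g0' : FiniteDimensional K (L.H0BC K) := by
    have : (L.twist c 0).H0BC K = L.H0BC K := by rw [QC2.H0BC, QC2.H0BC, hd]
    rw [← this]; exact g0
  have g1' : FiniteDimensional K (L.H1BC K) := by
    have : LinearMap.range ((L.twist c 0).dBC K) = LinearMap.range (L.dBC K) := by rw [hd]
    unfold QC2.H1BC
    rw [← this]; exact g1
  refine ⟨g0', g1', ?_⟩
  rw [chiField_twist_zero, e] at e2
  linarith

/-- Dimension of the fibre of a finite projective module at a field-valued point. -/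
lemma finrank_tensor_eq_rankAtStalk (P : Type u) [AddCommGroup P] [Module A P] [Module.Finite A P]
    [Module.Projective A P] (K : Type u) [Field K] [Algebra A K] (q : PrimeSpectrum K) :
    Module.finrank K (K ⊗[A] P) = Module.rankAtStalk P (q.comap (algebraMap A K)) := by
  rw [← Module.rankAtStalk_baseChange, Module.rankAtStalk_eq_finrank_of_free]
  rfl

/-- **T6: the Euler characteristic is locally constant on `Spec A`** (given A1b.T5 for the high
twists). -/
theorem isLocallyConstant_chi_of_good [Module.Finite A[X] (Module.AEval A L.N0 c.t)]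
    (hs : IsSMulRegular L.N1 c.s)
    [Module.Finite A (QInf c L 1)] [Module.Projective A (QInf c L 1)]
    (hT5 : ∀ m : ℤ, Function.Surjective (L.twist c m).d → GoodH0 (L.twist c m)) :
    IsLocallyConstant L.chi := by
  obtain ⟨m₀, hgood, h⟩ := exists_chiField_formula c L hs hT5
  have := hgood.fin
  have := hgood.proj
  have := Module.finitePresentation_of_projective A (L.twist c m₀).H0
  have := Module.finitePresentation_of_projective A (QInf c L 1)
  have h1 : IsLocallyConstant (Module.rankAtStalk (R := A) (L.twist c m₀).H0) :=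
    Module.isLocallyConstant_rankAtStalk
  have h2 : IsLocallyConstant (Module.rankAtStalk (R := A) (QInf c L 1)) :=
    Module.isLocallyConstant_rankAtStalk
  have key : L.chi = fun p => (Module.rankAtStalk (L.twist c m₀).H0 p : ℤ) -
      m₀ * (Module.rankAtStalk (QInf c L 1) p : ℤ) := by
    funext p
    obtain ⟨-, -, e⟩ := h p.asIdeal.ResidueField
    rw [QC2.chi, e, Module.rankAtStalk_eq, Module.rankAtStalk_eq]
  rw [key]
  exact IsLocallyConstant.comp₂ h1 h2 (fun a b => (a : ℤ) - m₀ * (b : ℤ))

/-- The Euler characteristic at any `A`-field `K` equals `χ` at the image point of `Spec A`. -/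
theorem chiField_eq_chi_of_good [Module.Finite A[X] (Module.AEval A L.N0 c.t)]
    (hs : IsSMulRegular L.N1 c.s)
    [Module.Finite A (QInf c L 1)] [Module.Projective A (QInf c L 1)]
    (hT5 : ∀ m : ℤ, Function.Surjective (L.twist c m).d → GoodH0 (L.twist c m))
    (K : Type u) [Field K] [Algebra A K] (q : PrimeSpectrum K) :
    L.chiField K = L.chi (q.comap (algebraMap A K)) := by
  obtain ⟨m₀, hgood, h⟩ := exists_chiField_formula c L hs hT5
  have := hgood.fin
  have := hgood.proj
  obtain ⟨-, -, e⟩ := h K
  obtain ⟨-, -, e'⟩ := h (q.comap (algebraMap A K)).asIdeal.ResidueField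
  rw [QC2.chi, e, e', finrank_tensor_eq_rankAtStalk _ K q, finrank_tensor_eq_rankAtStalk _ K q,
    Module.rankAtStalk_eq, Module.rankAtStalk_eq]

/-- `N1 / sN1` is a finite `A`-module if `N1` is finite projective over `A[s]`. -/
theorem finite_QInf_one [Module.Finite A[X] (Module.AEval A L.N1 c.s)]
    [Module.Projective A[X] (Module.AEval A L.N1 c.s)] : Module.Finite A (QInf c L 1) := by
  have := Fibre.finite_quotient A c.s L.N1
  exact Module.Finite.equiv (Submodule.quotEquivOfEq (Fibre.sSub A c.s L.N1)
    (Fibre.sSub A (c.s ^ 1) L.N1) (by rw [pow_one]))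

/-- `N1 / sN1` is a projective `A`-module if `N1` is finite projective over `A[s]`. -/
theorem projective_QInf_one [Module.Finite A[X] (Module.AEval A L.N1 c.s)]
    [Module.Projective A[X] (Module.AEval A L.N1 c.s)] : Module.Projective A (QInf c L 1) := by
  have := Fibre.projective_quotient A c.s L.N1
  exact Module.Projective.of_equiv (Submodule.quotEquivOfEq (Fibre.sSub A c.s L.N1)
    (Fibre.sSub A (c.s ^ 1) L.N1) (by rw [pow_one]))

/-- **T6** (modulo A1b.T5): for `L` finite and projective over the line, the fibrewise Euler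
characteristic is locally constant on `Spec A`. -/
theorem isLocallyConstant_chi_of_T5 (hF : L.FiniteOverLine c) (hP : L.ProjOverLine c)
    (hT5 : ∀ m : ℤ, Function.Surjective (L.twist c m).d → GoodH0 (L.twist c m)) :
    IsLocallyConstant L.chi := by
  have := hF.fin0
  have := hF.fin1
  have := hP.proj1
  have := finite_QInf_one c L
  have := projective_QInf_one c L
  exact isLocallyConstant_chi_of_good c L (Fibre.isSMulRegular_of_projective (A := A) c.s) hT5

/-- Finite-dimensionality of fibre cohomology and compatibility of `χ` with field-valued points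
(modulo A1b.T5). -/
theorem chiField_eq_chi_of_T5 (hF : L.FiniteOverLine c) (hP : L.ProjOverLine c)
    (hT5 : ∀ m : ℤ, Function.Surjective (L.twist c m).d → GoodH0 (L.twist c m))
    (K : Type u) [Field K] [Algebra A K] (q : PrimeSpectrum K) :
    FiniteDimensional K (L.H0BC K) ∧ FiniteDimensional K (L.H1BC K) ∧
      L.chiField K = L.chi (q.comap (algebraMap A K)) := by
  have := hF.fin0
  have := hF.fin1
  have := hP.proj1
  have := finite_QInf_one c L
  have := projective_QInf_one c L
  have hs : IsSMulRegular L.N1 c.s := Fibre.isSMulRegular_of_projective (A := A) c.s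
  obtain ⟨m₀, -, h⟩ := exists_chiField_formula c L hs hT5
  obtain ⟨h0, h1, -⟩ := h K
  exact ⟨h0, h1, chiField_eq_chi_of_good c L hs hT5 K q⟩

end P1CohChi

end Fermat.Agent.Jac
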