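/-
Fermat/Agent/Jac/P1CohChi/Main.lean  (helper14, programme JAC, brick A1c)

**T6**: for a two-chart module `L` which is finite and projective over the line, the fibrewise
Euler characteristic `L.chi : PrimeSpectrum A → ℤ` is locally constant; the cohomology of every
fibre (at any `A`-field `K`) is finite-dimensional, and `χ(L_K)` only depends on the image point
of `Spec K → Spec A`.  Uses A1b.T5 (helper76, `P1CohH0.T5`).
-/
import Fermat.Agent.Jac.P1CohChi.Chi
import Fermat.Agent.Jac.P1CohH0

set_option autoImplicit false
set_option linter.unusedSectionVars false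

universe u

open TensorProduct Polynomial

namespace Fermat.Agent.Jac.P1CohChi

variable {A R0 R1 R01 : Type u} [CommRing A] [CommRing R0] [CommRing R1] [CommRing R01]
  [Algebra A R0] [Algebra A R1] [Algebra A R01] [Algebra R0 R01] [Algebra R1 R01]
  [IsScalarTower A R0 R01] [IsScalarTower A R1 R01]
  (c : TwoChart A R0 R1 R01) (L : QC2 A R0 R1 R01)

lemma twist_finiteOverLine (hF : L.FiniteOverLine c) (m : ℤ) : (L.twist c m).FiniteOverLine c :=
  ⟨hF.fin0, hF.fin1⟩

lemma twist_projOverLine (hP : L.ProjOverLine c) (m : ℤ) : (L.twist c m).ProjOverLine c :=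
  ⟨hP.proj0, hP.proj1⟩

/-- A1b.T5 for all twists with surjective Čech differential. -/
theorem goodH0_twist (hF : L.FiniteOverLine c) (hP : L.ProjOverLine c) (m : ℤ)
    (hd : Function.Surjective (L.twist c m).d) : GoodH0 (L.twist c m) := by
  have h1 : Subsingleton (L.twist c m).H1 :=
    Submodule.Quotient.subsingleton_iff.2 (LinearMap.range_eq_top.2 hd)
  obtain ⟨a, b, e⟩ := P1CohH0.T5 c (L.twist c m) (twist_finiteOverLine c L hF m)
    (twist_projOverLine c L hP m) h1
  exact ⟨a, b, e⟩

/-- **T6.** The fibrewise Euler characteristic of a two-chart module which is finite and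
projective over the line is locally constant on `Spec A`. -/
theorem isLocallyConstant_chi (hF : L.FiniteOverLine c) (hP : L.ProjOverLine c) :
    IsLocallyConstant L.chi :=
  isLocallyConstant_chi_of_T5 c L hF hP (goodH0_twist c L hF hP)

/-- For every `A`-field `K` the cohomology of `L_K` is finite-dimensional and its Euler
characteristic equals `L.chi` at the image of `Spec K → Spec A`. -/
theorem chiField_eq_chi (hF : L.FiniteOverLine c) (hP : L.ProjOverLine c)
    (K : Type u) [Field K] [Algebra A K] (q : PrimeSpectrum K) :
    FiniteDimensional K (L.H0BC K) ∧ FiniteDimensional K (L.H1BC K) ∧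
      L.chiField K = L.chi (q.comap (algebraMap A K)) :=
  chiField_eq_chi_of_T5 c L hF hP (goodH0_twist c L hF hP) K q

end Fermat.Agent.Jac.P1CohChi
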