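/-
Fermat/Agent/Jac/P1CohChi/TwistFormula.lean  (helper14, programme JAC, brick A1c)

Rank additivity: `χ(L(m)_K) = χ(L_K) + m · dim_K (K ⊗ N1/sN1)` for all `m : ℤ` and every
`A`-field `K`; version for `L.chi` with `Module.rankAtStalk`; and the specialisation to a base
field (`A = K`): `χ = dim H⁰ - dim H¹`.
-/
import Fermat.Agent.Jac.P1CohChi.Main
import Fermat.Agent.Jac.FlatBC60

set_option autoImplicit false
set_option linter.unusedSectionVars false

universe u

open TensorProduct Polynomial

namespace Fermat.Agent.Jac.P1CohChi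

variable {A R0 R1 R01 : Type u} [CommRing A] [CommRing R0] [CommRing R1] [CommRing R01]
  [Algebra A R0] [Algebra A R1] [Algebra A R01] [Algebra R0 R01] [Algebra R1 R01]
  [IsScalarTower A R0 R01] [IsScalarTower A R1 R01]
  (c : TwoChart A R0 R1 R01) (L : QC2 A R0 R1 R01)

/-- **Rank additivity** for twists at infinity, at any `A`-field `K`. -/
theorem chiField_twist (hF : L.FiniteOverLine c) (hP : L.ProjOverLine c)
    (K : Type u) [Field K] [Algebra A K] (m : ℤ) :
    (L.twist c m).chiField K =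
      L.chiField K + m * (Module.finrank K (K ⊗[A] QInf c L 1) : ℤ) := by
  have := hF.fin0
  have := hF.fin1
  have := hP.proj1
  have := finite_QInf_one c L
  have := projective_QInf_one c L
  have hs : IsSMulRegular L.N1 c.s := Fibre.isSMulRegular_of_projective (A := A) c.s
  obtain ⟨m₀, hm₀⟩ := exists_twist_d_surjective c L
  obtain ⟨M, hM0, hMm, hM⟩ : ∃ M : ℤ, (m₀ : ℤ) ≤ M ∧ m ≤ M ∧ 0 ≤ M :=
    ⟨max m₀ (max m 0), le_max_left _ _, le_trans (le_max_left _ _) (le_max_right _ _),
      le_trans (le_max_right _ _) (le_max_right _ _)⟩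
  have hsurj := hm₀ M hM0
  obtain ⟨f0, f1, -⟩ := chiField_of_good (L.twist c M) (goodH0_twist c L hF hP M hsurj) hsurj K
  have c1 : ((M - m).toNat : ℤ) = M - m := Int.toNat_of_nonneg (by omega)
  have c2 : (M.toNat : ℤ) = M := Int.toNat_of_nonneg hM
  obtain ⟨-, -, e1⟩ := chiField_twist_sub' c L K M hs f0 f1 (M - m).toNat m (by rw [c1]; ring)
  obtain ⟨-, -, e2⟩ := chiField_twist_sub' c L K M hs f0 f1 M.toNat 0 (by rw [c2]; ring)
  rw [chiField_twist_zero] at e2
  rw [c1] at e1
  rw [c2] at e2
  linear_combination e2 - e1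

/-- Rank additivity for `L.chi`. -/
theorem chi_twist (hF : L.FiniteOverLine c) (hP : L.ProjOverLine c) (m : ℤ)
    (p : PrimeSpectrum A) :
    (L.twist c m).chi p = L.chi p + m * (Module.rankAtStalk (QInf c L 1) p : ℤ) := by
  have := hF.fin1
  have := hP.proj1
  have := finite_QInf_one c L
  have := projective_QInf_one c L
  rw [QC2.chi, QC2.chi, chiField_twist c L hF hP, Module.rankAtStalk_eq]

section BaseField

variable {K S0 S1 S01 : Type u} [Field K] [CommRing S0] [CommRing S1] [CommRing S01]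
  [Algebra K S0] [Algebra K S1] [Algebra K S01] [Algebra S0 S01] [Algebra S1 S01]
  [IsScalarTower K S0 S01] [IsScalarTower K S1 S01] (L : QC2 K S0 S1 S01)

/-- Over a base field, `H0BC K` is `H⁰`. -/
noncomputable def H0BCSelfEquiv : L.H0BC K ≃ₗ[K] L.H0 :=
  (FlatBC60.H0BCEquiv L K).symm.trans (TensorProduct.lid K L.H0)

/-- Over a base field, `H1BC K` is `H¹`. -/
noncomputable def H1BCSelfEquiv : L.H1BC K ≃ₗ[K] L.H1 :=
  (FlatBC60.H1BCEquiv L K).trans (TensorProduct.lid K L.H1)

/-- Over a base field `K`, the Euler characteristic at `K` is `dim H⁰ - dim H¹`. -/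
theorem chiField_self :
    L.chiField K = (Module.finrank K L.H0 : ℤ) - Module.finrank K L.H1 := by
  rw [QC2.chiField, (H0BCSelfEquiv L).finrank_eq, (H1BCSelfEquiv L).finrank_eq]

/-- Over a base field, the fibre at infinity tensored with `K` is itself. -/
theorem finrank_tensor_self (Q : Type u) [AddCommGroup Q] [Module K Q] :
    Module.finrank K (K ⊗[K] Q) = Module.finrank K Q :=
  (TensorProduct.lid K Q).finrank_eq

/-- Over a base field: cohomology is finite-dimensional, and
`χ(L(m)) = χ(L) + m · dim_K (N1/sN1)`. -/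
theorem euler_twist_of_field (c : TwoChart K S0 S1 S01) (hF : L.FiniteOverLine c)
    (hP : L.ProjOverLine c) (m : ℤ) :
    FiniteDimensional K L.H0 ∧ FiniteDimensional K L.H1 ∧
    (Module.finrank K (L.twist c m).H0 : ℤ) - Module.finrank K (L.twist c m).H1 =
      (Module.finrank K L.H0 : ℤ) - Module.finrank K L.H1 +
        m * (Module.finrank K (QInf c L 1) : ℤ) := by
  obtain ⟨h0, h1, -⟩ := chiField_eq_chi c L hF hP K ⟨⊥, Ideal.isPrime_bot⟩
  refine ⟨Module.Finite.equiv (H0BCSelfEquiv L), Module.Finite.equiv (H1BCSelfEquiv L), ?_⟩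
  rw [← chiField_self, ← chiField_self, chiField_twist c L hF hP K m, finrank_tensor_self]

end BaseField

end Fermat.Agent.Jac.P1CohChi
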