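/-
Fermat/Agent/Jac/P1CohChi/LineRank.lean  (helper14, programme JAC, brick A1c complement)

The fibre at infinity `N1 / s N1` of a line bundle has the same rank over `A` as `R1 / s R1`
(the degree `d` of the divisor at infinity).  Consequently, for a line bundle `L`,
`χ(L(m)) = χ(L) + m · rank_A (R1 / s R1)`.

Core linear algebra: over a finite-dimensional algebra `T` over a field, an invertible `T`-module
has the same dimension as `T` (Artinian rings are semilocal, so invertible modules are free).
-/
import Fermat.Agent.Jac.P1CohChi.TwistFormula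

set_option autoImplicit false
set_option linter.unusedSectionVars false

universe u

open TensorProduct Polynomial

namespace Fermat.Agent.Jac.P1CohChi.LineRank

attribute [local instance] Algebra.TensorProduct.rightAlgebra

/-- Over a finite-dimensional algebra over a field, an invertible module has the same dimension
as the algebra. -/
theorem finrank_invertible_of_finite {K : Type u} [Field K] (T : Type u) [CommRing T] [Algebra K T]
    [Module.Finite K T] (Q : Type u) [AddCommGroup Q] [Module T Q] [Module K Q]
    [IsScalarTower K T Q] [Module.Invertible T Q] :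
    Module.finrank K Q = Module.finrank K T := by
  have : IsArtinianRing T := IsArtinianRing.of_finite K T
  have : Module.Free T Q := inferInstance
  obtain ⟨e⟩ := (Module.Invertible.free_iff_linearEquiv (R := T) (M := Q)).1 this
  exact (e.restrictScalars K).finrank_eq

/-- For a finite `A`-algebra `S` and an invertible `S`-module `Q`, the fibres of `Q` and `S` at any
`A`-field have the same dimension. -/
theorem finrank_tensor_invertible {A : Type u} [CommRing A] (S : Type u) [CommRing S]
    [Algebra A S] [Module.Finite A S] (Q : Type u) [AddCommGroup Q] [Module A Q] [Module S Q]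
    [IsScalarTower A S Q] [Module.Invertible S Q] (K : Type u) [Field K] [Algebra A K] :
    Module.finrank K (K ⊗[A] Q) = Module.finrank K (K ⊗[A] S) := by
  have e := Algebra.IsPushout.cancelBaseChange A K S (K ⊗[A] S) Q
  rw [← e.finrank_eq]
  exact finrank_invertible_of_finite (K ⊗[A] S) ((K ⊗[A] S) ⊗[S] Q)

section Quot

variable {A : Type u} [CommRing A] {R : Type u} [CommRing R] [Algebra A R] (s : R)
  (N : Type u) [AddCommGroup N] [Module A N] [Module R N] [IsScalarTower A R N]

lemma sSub_eq : Fibre.sSub A s N =
    ((Ideal.span {s} : Ideal R) • (⊤ : Submodule R N)).restrictScalars A := by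
  ext x
  rw [Submodule.restrictScalars_mem, Submodule.ideal_span_singleton_smul,
    Submodule.mem_smul_pointwise_iff_exists]
  constructor
  · rintro ⟨y, rfl⟩
    exact ⟨y, Submodule.mem_top, rfl⟩
  · rintro ⟨y, -, rfl⟩
    exact ⟨y, rfl⟩

/-- `N / sN` (quotient by the `A`-submodule) is the quotient by the `R`-submodule `(s) • ⊤`. -/
noncomputable def sSubEquiv :
    (N ⧸ Fibre.sSub A s N) ≃ₗ[A] (N ⧸ ((Ideal.span {s} : Ideal R) • (⊤ : Submodule R N))) :=
  (Submodule.quotEquivOfEq _ _ (sSub_eq s N)).trans
    (Submodule.Quotient.restrictScalarsEquiv A _)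

instance isScalarTower_quot :
    IsScalarTower A (R ⧸ (Ideal.span {s} : Ideal R))
      (N ⧸ ((Ideal.span {s} : Ideal R) • (⊤ : Submodule R N))) where
  smul_assoc a r x := by
    obtain ⟨r, rfl⟩ := Ideal.Quotient.mk_surjective r
    obtain ⟨x, rfl⟩ := Submodule.Quotient.mk_surjective _ x
    have h1 : a • (Ideal.Quotient.mk (Ideal.span {s}) r) = Ideal.Quotient.mk _ (a • r) := rfl
    rw [h1, Module.Quotient.mk_smul_mk, Module.Quotient.mk_smul_mk, smul_assoc]
    rfl

/-- `N / (s) N` is an invertible `R/(s)`-module when `N` is an invertible `R`-module. -/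
theorem invertible_quot [Module.Invertible R N] :
    Module.Invertible (R ⧸ (Ideal.span {s} : Ideal R))
      (N ⧸ ((Ideal.span {s} : Ideal R) • (⊤ : Submodule R N))) :=
  Module.Invertible.congr
    ((TensorProduct.quotTensorEquivQuotSMul N (Ideal.span {s} : Ideal R)).extendScalarsOfSurjective
      Ideal.Quotient.mk_surjective)

/-- `R / sR` (quotient by the `A`-submodule) is the quotient ring `R / (s)`. -/
noncomputable def quotSpanEquiv :
    (R ⧸ Fibre.sSub A s R) ≃ₗ[A] (R ⧸ (Ideal.span {s} : Ideal R)) :=
  (sSubEquiv (A := A) s R).trans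
    ((Submodule.quotEquivOfEq ((Ideal.span {s} : Ideal R) • (⊤ : Submodule R R))
      (Ideal.span {s} : Ideal R) (by rw [smul_eq_mul, Ideal.mul_top])).restrictScalars A)

/-- **Rank of the fibre at infinity.** If `N` is an invertible `R`-module and `R/(s)` is a finite
`A`-module, then `K ⊗ N/sN` and `K ⊗ R/sR` have the same dimension for every `A`-field `K`. -/
theorem finrank_tensor_quot [Module.Invertible R N]
    [Module.Finite A (R ⧸ Fibre.sSub A s R)] (K : Type u) [Field K] [Algebra A K] :
    Module.finrank K (K ⊗[A] (N ⧸ Fibre.sSub A s N)) =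
      Module.finrank K (K ⊗[A] (R ⧸ Fibre.sSub A s R)) := by
  have hfin : Module.Finite A (R ⧸ (Ideal.span {s} : Ideal R)) :=
    Module.Finite.equiv (quotSpanEquiv (A := A) s)
  have := invertible_quot s N
  have h1 := finrank_tensor_invertible (A := A) (R ⧸ (Ideal.span {s} : Ideal R))
    (N ⧸ ((Ideal.span {s} : Ideal R) • (⊤ : Submodule R N))) K
  have e1 := ((sSubEquiv (A := A) s N).baseChange A K _ _).finrank_eq
  have e2 := ((quotSpanEquiv (A := A) s).baseChange A K _ _).finrank_eq
  rw [e1, h1, e2]

end Quot

section TwoChartModules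

variable {A R0 R1 R01 : Type u} [CommRing A] [CommRing R0] [CommRing R1] [CommRing R01]
  [Algebra A R0] [Algebra A R1] [Algebra A R01] [Algebra R0 R01] [Algebra R1 R01]
  [IsScalarTower A R0 R01] [IsScalarTower A R1 R01]
  (c : TwoChart A R0 R1 R01) (L : QC2 A R0 R1 R01)

/-- The fibre at infinity of the structure sheaf: `R1 / s R1` as an `A`-module. -/
abbrev UInf : Type u := QInf c (QC2.unit : QC2 A R0 R1 R01) 1

/-- If `R1` is finite projective over `A[s]`, then `R1 / sR1` is a finite `A`-module. -/
theorem finite_UInf (hc : c.FiniteProjOverLine) : Module.Finite A (UInf c) := by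
  have h1 : Module.Finite A[X] (Module.AEval A (QC2.unit : QC2 A R0 R1 R01).N1 c.s) := hc.fin1
  have h2 : Module.Projective A[X] (Module.AEval A (QC2.unit : QC2 A R0 R1 R01).N1 c.s) :=
    hc.proj1
  exact finite_QInf_one c QC2.unit

/-- If `R1` is finite projective over `A[s]`, then `R1 / sR1` is a projective `A`-module. -/
theorem projective_UInf (hc : c.FiniteProjOverLine) : Module.Projective A (UInf c) := by
  have h1 : Module.Finite A[X] (Module.AEval A (QC2.unit : QC2 A R0 R1 R01).N1 c.s) := hc.fin1
  have h2 : Module.Projective A[X] (Module.AEval A (QC2.unit : QC2 A R0 R1 R01).N1 c.s) :=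
    hc.proj1
  exact projective_QInf_one c QC2.unit

/-- For a two-chart module with `N1` invertible over `R1`, the fibre at infinity has the same
fibre dimensions as `R1 / sR1`. -/
theorem finrank_QInf_eq (hinv : Module.Invertible R1 L.N1) [Module.Finite A (UInf c)]
    (K : Type u) [Field K] [Algebra A K] :
    Module.finrank K (K ⊗[A] QInf c L 1) = Module.finrank K (K ⊗[A] UInf c) := by
  have : Module.Finite A (R1 ⧸ Fibre.sSub A (c.s ^ 1) R1) := ‹Module.Finite A (UInf c)›
  exact finrank_tensor_quot (A := A) (c.s ^ 1) L.N1 K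

/-- **Degree formula for line bundles**: `χ(L(m)_K) = χ(L_K) + m · dim_K (K ⊗ R1/sR1)`. -/
theorem chiField_twist_line (hc : c.FiniteProjOverLine) (hF : L.FiniteOverLine c)
    (hP : L.ProjOverLine c) (hinv : Module.Invertible R1 L.N1)
    (K : Type u) [Field K] [Algebra A K] (m : ℤ) :
    (L.twist c m).chiField K =
      L.chiField K + m * (Module.finrank K (K ⊗[A] UInf c) : ℤ) := by
  have := finite_UInf c hc
  rw [chiField_twist c L hF hP K m, finrank_QInf_eq c L hinv K]

/-- Degree formula for `L.chi`: `χ(L(m))(p) = χ(L)(p) + m · rank_p (R1/sR1)`. -/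
theorem chi_twist_line (hc : c.FiniteProjOverLine) (hF : L.FiniteOverLine c)
    (hP : L.ProjOverLine c) (hinv : Module.Invertible R1 L.N1) (m : ℤ) (p : PrimeSpectrum A) :
    (L.twist c m).chi p = L.chi p + m * (Module.rankAtStalk (UInf c) p : ℤ) := by
  have := finite_UInf c hc
  have := projective_UInf c hc
  rw [QC2.chi, QC2.chi, chiField_twist_line c L hc hF hP hinv, Module.rankAtStalk_eq]

end TwoChartModules

end Fermat.Agent.Jac.P1CohChi.LineRank
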